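import Mathlib

/-!
# Brun's theorem: the choice of the parameters
-/

set_option autoImplicit false

open Filter Asymptotics Topology

namespace Fermat.Agent.Cor.Brun

/-- the choice of the parameters in Brun's pure sieve: `r = 2 ⌈4 log log N⌉`, `z = ⌊exp (log N / (2 r))⌋` -/
theorem isBigO_of {f : ℕ → ℝ} (hf : ∀ N, 0 ≤ f N) {C : ℝ} (hC : 0 ≤ C)
    (h : ∀ z r N : ℕ, 3 ≤ z → Even r → f N ≤ z + C * N / Real.log z ^ 2 +
      C * N * Real.exp (-r) * Real.log z ^ 6 + C * z ^ r * Real.log z ^ 2) :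
    f =O[Filter.atTop] fun N : ℕ => (N : ℝ) * Real.log (Real.log N) ^ 2 / Real.log N ^ 2 := by
  have hL : Tendsto (fun N : ℕ => Real.log (N : ℝ)) atTop atTop :=
    Real.tendsto_log_atTop.comp tendsto_natCast_atTop_atTop
  have e1 : ∀ᶠ x : ℝ in atTop, 1 ≤ Real.log x := Real.tendsto_log_atTop.eventually_ge_atTop 1
  have e2 : ∀ᶠ x : ℝ in atTop, 40 * Real.log x ≤ x := by
    have h1 := (Real.isLittleO_log_id_atTop.bound (show (0 : ℝ) < 1 / 40 by norm_num))
    filter_upwards [h1, eventually_ge_atTop 1, e1] with x hx hx1 hx2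
    rw [Real.norm_of_nonneg (by linarith), id, Real.norm_of_nonneg (by linarith)] at hx
    linarith
  have e3 : ∀ᶠ x : ℝ in atTop, x ^ 4 ≤ Real.exp (x / 2) := by
    have h1 := (isLittleO_pow_exp_pos_mul_atTop 4 (show (0 : ℝ) < 1 / 2 by norm_num)).bound
      (show (0 : ℝ) < 1 by norm_num)
    filter_upwards [h1, eventually_ge_atTop 0] with x hx hx0
    rw [Real.norm_of_nonneg (by positivity), Real.norm_of_nonneg (by positivity), one_mul,
      one_div, inv_mul_eq_div] at hx
    exact hx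
  refine IsBigO.of_bound (1602 * C + 1) ?_
  filter_upwards [hL.eventually e1, hL.eventually e2, hL.eventually e3, eventually_ge_atTop 3]
    with N h1 h2 h3 h4
  have hN0 : (0 : ℝ) < N := by exact_mod_cast (by omega : 0 < N)
  set x : ℝ := Real.log N with hx
  set y : ℝ := Real.log x with hy
  have hxpos : 0 < x := by linarith
  have hx1 : 1 ≤ x := by linarith
  have hexp : Real.exp x = N := Real.exp_log hN0
  set r : ℕ := 2 * ⌈4 * y⌉₊ with hr
  have hr1 : 8 * y ≤ r := by
    have h5 := Nat.le_ceil (4 * y)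
    rw [hr]
    push_cast
    linarith
  have hr2 : (r : ℝ) ≤ 10 * y := by
    have h5 := Nat.ceil_lt_add_one (show 0 ≤ 4 * y by linarith)
    rw [hr]
    push_cast
    linarith
  have hrpos : (0 : ℝ) < r := by linarith
  have hr1' : (1 : ℝ) ≤ r := by linarith
  set t : ℝ := x / (2 * r) with ht
  have ht2 : 2 ≤ t := by
    rw [ht, le_div_iff₀ (by linarith)]
    linarith
  have htr : t * r = x / 2 := by
    rw [ht]
    field_simp
  have htx : t ≤ x / 2 := by
    rw [← htr]
    nlinarith
  set z : ℕ := ⌊Real.exp t⌋₊ with hz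
  have hz3 : 3 ≤ z := by
    refine Nat.le_floor ?_
    have h5 := Real.add_one_le_exp t
    push_cast
    linarith
  have hz3' : (3 : ℝ) ≤ z := by exact_mod_cast hz3
  have hzle : (z : ℝ) ≤ Real.exp t := Nat.floor_le (Real.exp_pos t).le
  have hzge : Real.exp (t / 2) ≤ z := by
    have h5 : Real.exp t < z + 1 := Nat.lt_floor_add_one _
    have h6 := Real.add_one_le_exp (t / 2)
    have h7 : Real.exp t = Real.exp (t / 2) * Real.exp (t / 2) := by
      rw [← Real.exp_add]
      congr 1
      ring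
    nlinarith
  have hlog1 : t / 2 ≤ Real.log z := by
    rw [← Real.log_exp (t / 2)]
    exact Real.log_le_log (Real.exp_pos _) hzge
  have hlog2 : Real.log z ≤ x := by
    have h5 : Real.log z ≤ t := by
      rw [← Real.log_exp t]
      exact Real.log_le_log (by linarith) hzle
    linarith
  have hlog0 : 0 ≤ Real.log z := by linarith
  -- the four terms
  set T : ℝ := (N : ℝ) * y ^ 2 / x ^ 2 with hT
  have hy2 : 1 ≤ y ^ 2 := one_le_pow₀ h1
  have hNx : (N : ℝ) / x ^ 2 ≤ T := by
    rw [hT, mul_div_right_comm]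
    exact le_mul_of_one_le_right (by positivity) hy2
  have hhalf : Real.exp (x / 2) * x ^ 2 ≤ N / x ^ 2 := by
    rw [le_div_iff₀ (by positivity), ← hexp]
    have h5 : Real.exp x = Real.exp (x / 2) * Real.exp (x / 2) := by
      rw [← Real.exp_add]
      congr 1
      ring
    rw [h5, mul_assoc, ← pow_add]
    exact mul_le_mul_of_nonneg_left h3 (Real.exp_pos _).le
  have b1 : (z : ℝ) ≤ T := by
    have h5 : (z : ℝ) ≤ Real.exp (x / 2) := hzle.trans (Real.exp_le_exp.mpr htx)
    have h6 : Real.exp (x / 2) ≤ Real.exp (x / 2) * x ^ 2 :=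
      le_mul_of_one_le_right (Real.exp_pos _).le (one_le_pow₀ hx1)
    linarith
  have b2 : C * N / Real.log z ^ 2 ≤ 1600 * C * T := by
    have h5 : x ^ 2 ≤ 1600 * y ^ 2 * Real.log z ^ 2 := by
      have h6 : x ≤ 40 * y * Real.log z := by
        have h7 : x = 2 * (t * r) := by rw [htr]; ring
        have h8 : t * r ≤ (2 * Real.log z) * (10 * y) :=
          mul_le_mul (by linarith) hr2 hrpos.le (by linarith)
        linarith
      have h7 : x ^ 2 ≤ (40 * y * Real.log z) ^ 2 := pow_le_pow_left₀ hxpos.le h6 2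
      nlinarith
    have h6 : 0 < Real.log z ^ 2 := by
      have : 0 < Real.log z := by linarith
      positivity
    rw [div_le_iff₀ h6, hT]
    have h7 : 1600 * C * (N * y ^ 2 / x ^ 2) * Real.log z ^ 2 =
        (C * N) * ((1600 * y ^ 2 * Real.log z ^ 2) / x ^ 2) := by ring
    rw [h7]
    refine le_mul_of_one_le_right (by positivity) ?_
    rw [one_le_div (by positivity)]
    exact h5
  have b3 : C * N * Real.exp (-r) * Real.log z ^ 6 ≤ C * T := by
    have h5 : Real.exp (-(r : ℝ)) ≤ 1 / x ^ 8 := by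
      have h6 : Real.exp (-(r : ℝ)) ≤ Real.exp (-(8 * y)) := Real.exp_le_exp.mpr (by linarith)
      have h7 : Real.exp (-(8 * y)) = 1 / x ^ 8 := by
        rw [Real.exp_neg, one_div]
        congr 1
        have h8 : (8 : ℝ) * y = ((8 : ℕ) : ℝ) * y := by norm_num
        rw [h8, Real.exp_nat_mul, hy, Real.exp_log hxpos]
      linarith
    have h6 : Real.log z ^ 6 ≤ x ^ 6 := pow_le_pow_left₀ hlog0 hlog2 6
    calc C * N * Real.exp (-r) * Real.log z ^ 6 ≤ C * N * (1 / x ^ 8) * x ^ 6 := by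
          gcongr
      _ = C * (N / x ^ 2) := by
          field_simp
      _ ≤ C * T := mul_le_mul_of_nonneg_left hNx hC
  have b4 : C * z ^ r * Real.log z ^ 2 ≤ C * T := by
    have h5 : (z : ℝ) ^ r ≤ Real.exp (x / 2) := by
      calc (z : ℝ) ^ r ≤ Real.exp t ^ r := pow_le_pow_left₀ (by linarith) hzle r
        _ = Real.exp (x / 2) := by
          rw [← Real.exp_nat_mul, mul_comm, htr]
    have h6 : Real.log z ^ 2 ≤ x ^ 2 := pow_le_pow_left₀ hlog0 hlog2 2
    calc C * z ^ r * Real.log z ^ 2 ≤ C * Real.exp (x / 2) * x ^ 2 := by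
          gcongr
      _ = C * (Real.exp (x / 2) * x ^ 2) := by ring
      _ ≤ C * (N / x ^ 2) := mul_le_mul_of_nonneg_left hhalf hC
      _ ≤ C * T := mul_le_mul_of_nonneg_left hNx hC
  have hTpos : 0 ≤ T := by positivity
  have hmain := h z r N hz3 ⟨⌈4 * y⌉₊, by rw [hr]; ring⟩
  rw [Real.norm_of_nonneg (hf N), Real.norm_of_nonneg hTpos]
  linarith

end Fermat.Agent.Cor.Brun
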