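/-
Brun's theorem: the sum over a thin set (helper85).
-/
import Mathlib

/-!
# Sums of reciprocals over a thin set

`summable_of`: if a set `T` of natural numbers has `O(N (log log N)² / (log N)²)` elements below `N`,
then the sum of the reciprocals of its elements converges.
-/

namespace Fermat.Agent.Cor.Brun

open Filter Asymptotics Finset

/-- The growth condition on one dyadic block. -/
lemma isBigO_log_log : (fun x : ℝ => Real.log x ^ 2 / x ^ 2) =O[atTop]
    fun x : ℝ => x ^ (-(3 / 2) : ℝ) := by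
  have h1 : (fun x : ℝ => Real.log x ^ (2 : ℝ)) =O[atTop] fun x : ℝ => x ^ (1 / 2 : ℝ) :=
    (isLittleO_log_rpow_rpow_atTop 2 (by norm_num : (0 : ℝ) < 1 / 2)).isBigO
  have h2 : (fun x : ℝ => Real.log x ^ (2 : ℝ) * (x ^ 2)⁻¹) =O[atTop]
      fun x : ℝ => x ^ (1 / 2 : ℝ) * (x ^ 2)⁻¹ := h1.mul (isBigO_refl _ _)
  refine (h2.congr' ?_ ?_)
  · filter_upwards with x
    rw [Real.rpow_ofNat, div_eq_mul_inv]
  · filter_upwards [eventually_gt_atTop 0] with x hx
    rw [← Real.rpow_natCast x 2, ← Real.rpow_neg hx.le, ← Real.rpow_add hx]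
    norm_num

/-- A set with `O(N (log log N)² / (log N)²)` elements below `N` has a convergent sum of
reciprocals. -/
theorem summable_of {T : ℕ → Prop} [DecidablePred T]
    (h : (fun N : ℕ => (((Finset.range N).filter T).card : ℝ)) =O[Filter.atTop]
      fun N : ℕ => (N : ℝ) * Real.log (Real.log N) ^ 2 / Real.log N ^ 2) :
    Summable fun n : ℕ => if T n then 1 / (n : ℝ) else 0 := by
  set f : ℕ → ℝ := fun n => if T n then 1 / (n : ℝ) else 0 with hf
  have hf0 : ∀ n, 0 ≤ f n := by
    intro n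
    simp only [hf]
    split_ifs <;> positivity
  set B : ℕ → ℝ := fun k => ∑ n ∈ Ico (2 ^ k) (2 ^ (k + 1)), f n with hB
  have hB0 : ∀ k, 0 ≤ B k := fun k => sum_nonneg fun n _ => hf0 n
  -- one block
  have hblock : ∀ k, B k ≤ (((range (2 ^ (k + 1))).filter T).card : ℝ) / 2 ^ k := by
    intro k
    have h1 : B k ≤ ∑ n ∈ Ico (2 ^ k) (2 ^ (k + 1)), (if T n then (1 : ℝ) / 2 ^ k else 0) := by
      refine sum_le_sum fun n hn => ?_
      simp only [hf]
      split_ifs
      · have h2 : ((2 : ℝ) ^ k) ≤ n := by exact_mod_cast (mem_Ico.1 hn).1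
        exact one_div_le_one_div_of_le (by positivity) h2
      · exact le_rfl
    refine h1.trans ?_
    rw [← sum_filter, sum_const, nsmul_eq_mul, mul_one_div]
    have h3 : ((Ico (2 ^ k) (2 ^ (k + 1))).filter T).card ≤
        ((range (2 ^ (k + 1))).filter T).card := by
      refine card_le_card (filter_subset_filter _ fun n hn => ?_)
      exact mem_range.2 (mem_Ico.1 hn).2
    gcongr
  set u : ℕ → ℝ := fun k => Real.log ((2 ^ (k + 1) : ℕ) : ℝ) with hu
  have hlog2 : 0 < Real.log 2 := Real.log_pos one_lt_two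
  have hueq : ∀ k, u k = Real.log 2 * ((k + 1 : ℕ) : ℝ) := by
    intro k
    simp only [hu]
    push_cast
    rw [Real.log_pow]
    push_cast
    ring
  have hutop : Tendsto u atTop atTop := by
    have h1 : Tendsto (fun k : ℕ => Real.log 2 * ((k + 1 : ℕ) : ℝ)) atTop atTop :=
      (tendsto_natCast_atTop_atTop.comp (tendsto_add_atTop_nat 1)).const_mul_atTop hlog2
    exact h1.congr fun k => (hueq k).symm
  have hB1 : B =O[atTop] fun k => u k ^ (-(3 / 2) : ℝ) := by
    have h1 : (fun k : ℕ => (((range (2 ^ (k + 1))).filter T).card : ℝ)) =O[atTop]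
        fun k : ℕ => (((2 ^ (k + 1) : ℕ) : ℝ)) * Real.log (u k) ^ 2 / u k ^ 2 :=
      h.comp_tendsto ((tendsto_pow_atTop_atTop_of_one_lt (r := 2) one_lt_two).comp
        (tendsto_add_atTop_nat 1))
    have h2 : (fun k : ℕ => Real.log (u k) ^ 2 / u k ^ 2) =O[atTop]
        fun k => u k ^ (-(3 / 2) : ℝ) := isBigO_log_log.comp_tendsto hutop
    have h3 : B =O[atTop] fun k : ℕ => Real.log (u k) ^ 2 / u k ^ 2 := by
      obtain ⟨C, hC⟩ := h1.bound
      refine IsBigO.of_bound (C * 2) ?_
      filter_upwards [hC] with k hk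
      rw [Real.norm_of_nonneg (hB0 k)]
      refine (hblock k).trans ?_
      rw [div_le_iff₀ (by positivity)]
      rw [Real.norm_of_nonneg (by positivity), Real.norm_of_nonneg (by positivity)] at hk
      rw [Real.norm_of_nonneg (by positivity)]
      refine hk.trans (le_of_eq ?_)
      push_cast
      ring
    exact h3.trans h2
  have hBsum : Summable B := by
    refine summable_of_isBigO_nat ?_ hB1
    have h1 : Summable fun k : ℕ => ((k : ℝ)) ^ (-(3 / 2) : ℝ) :=
      Real.summable_nat_rpow.2 (by norm_num)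
    have h2 : Summable fun k : ℕ => (((k + 1 : ℕ) : ℝ)) ^ (-(3 / 2) : ℝ) :=
      (summable_nat_add_iff 1).2 h1
    refine (h2.mul_left (Real.log 2 ^ (-(3 / 2) : ℝ))).congr fun k => ?_
    rw [hueq, Real.mul_rpow hlog2.le (by positivity)]
  -- partial sums
  have hpart : ∀ K, ∑ n ∈ range (2 ^ K), f n = f 0 + ∑ k ∈ range K, B k := by
    intro K
    induction K with
    | zero => simp
    | succ K ih =>
      rw [sum_range_succ, ← add_assoc, ← ih]
      exact (sum_range_add_sum_Ico f (Nat.pow_le_pow_right two_pos (Nat.le_succ K))).symm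
  refine summable_of_sum_range_le (c := f 0 + ∑' k, B k) hf0 fun N => ?_
  have h1 : ∑ n ∈ range N, f n ≤ ∑ n ∈ range (2 ^ N), f n :=
    sum_le_sum_of_subset_of_nonneg (range_subset_range.2 Nat.lt_two_pow_self.le)
      fun n _ _ => hf0 n
  refine h1.trans ?_
  rw [hpart]
  have := hBsum.sum_le_tsum (range N) fun k _ => hB0 k
  linarith

end Fermat.Agent.Cor.Brun
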