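import Fermat.Agent.Corollaries.Brun.Upper
import Fermat.Agent.Corollaries.Brun.Param
import Fermat.Agent.Corollaries.Brun.Sum

/-!
# Brun's theorem

V. Brun, 1919: for every `h ≥ 1` the sum of `1 / p` over the primes `p` such that `p + h` is prime
converges; the number of these `p < N` is `O(N (log log N)² / (log N)²)`.
-/

set_option autoImplicit false

open Finset Filter Topology Asymptotics

namespace Fermat.Agent.Cor.Brun

/-- **Brun's bound** for the number of `n < N` such that `n` and `n + h` are prime numbers. -/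
theorem isBigO_pairs {h : ℕ} (hh : h ≠ 0) : (fun N : ℕ => (pairs h N : ℝ)) =O[atTop]
    fun N : ℕ => (N : ℝ) * Real.log (Real.log N) ^ 2 / Real.log N ^ 2 := by
  obtain ⟨C, hC, h1⟩ := upper hh
  exact isBigO_of (fun N => Nat.cast_nonneg _) hC h1

/-- **Brun's theorem**: the sum of `1 / p` over the primes `p` such that `p + h` is prime
converges. -/
theorem brun {h : ℕ} (hh : h ≠ 0) :
    Summable fun p : {p : ℕ // p.Prime ∧ (p + h).Prime} => 1 / ((p : ℕ) : ℝ) := by
  have h1 := summable_of (T := fun n => n.Prime ∧ (n + h).Prime) (isBigO_pairs hh)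
  have h2 := summable_subtype_iff_indicator (s := {p : ℕ | p.Prime ∧ (p + h).Prime})
    (f := fun n : ℕ => 1 / (n : ℝ))
  refine h2.mpr (h1.congr fun n => ?_)
  by_cases hn : n.Prime ∧ (n + h).Prime
  · rw [if_pos hn, Set.indicator_of_mem (by exact hn)]
  · rw [if_neg hn, Set.indicator_of_notMem (by exact hn)]

/-- **Brun's theorem for twin primes**: `∑ (1 / p + 1 / (p + 2))` over all twin primes `p`, `p + 2`
converges. -/
theorem brun_twin : Summable fun p : {p : ℕ // p.Prime ∧ (p + 2).Prime} =>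
    1 / ((p : ℕ) : ℝ) + 1 / (((p : ℕ) : ℝ) + 2) := by
  have h1 := brun (h := 2) two_ne_zero
  refine h1.add (h1.of_nonneg_of_le (fun p => by positivity) fun p => ?_)
  have : (0 : ℝ) < ((p : ℕ) : ℝ) := by exact_mod_cast p.2.1.pos
  exact one_div_le_one_div_of_le this (by linarith)

theorem isLittleO_pairs {h : ℕ} (hh : h ≠ 0) :
    (fun N : ℕ => (pairs h N : ℝ)) =o[atTop] fun N : ℕ => (N : ℝ) / Real.log N := by
  have h1 := isBigO_pairs hh
  have h3 : (fun x : ℝ => Real.log x ^ 2) =o[atTop] id := Real.isLittleO_pow_log_id_atTop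
  have h4 := h3.comp_tendsto (Real.tendsto_log_atTop.comp
    (tendsto_natCast_atTop_atTop (R := ℝ)))
  have h5 := h4.mul_isBigO (isBigO_refl (fun N : ℕ => (N : ℝ) / Real.log N ^ 2) atTop)
  refine h1.trans_isLittleO (h5.congr' (Eventually.of_forall fun N => ?_) ?_)
  · simp only [Function.comp_apply]
    ring
  · filter_upwards [eventually_ge_atTop 3] with N hN
    have h6 : 0 < Real.log N := Real.log_pos (by exact_mod_cast (by omega : 1 < N))
    simp only [Function.comp_apply, id_eq]
    field_simp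

/-- Chebyshev's lower bound. -/
theorem isBigO_primeCounting : (fun N : ℕ => (N : ℝ) / Real.log N) =O[atTop]
    fun N : ℕ => (Nat.primeCounting N : ℝ) := by
  have hlog2 : 0 < Real.log 2 := Real.log_pos (by norm_num)
  refine IsBigO.of_bound (2 / Real.log 2) ?_
  have h1 : Tendsto (fun N : ℕ => (N : ℝ) + 1) atTop atTop :=
    tendsto_atTop_add_const_right _ 1 tendsto_natCast_atTop_atTop
  have h2 := h1.eventually (Real.isLittleO_log_id_atTop.bound
    (show 0 < Real.log 2 / 4 by positivity))
  filter_upwards [h2, eventually_ge_atTop 3] with N hN hN3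
  have hN1 : (1 : ℝ) ≤ N := by exact_mod_cast (by omega : 1 ≤ N)
  have h6 : 0 < Real.log N := Real.log_pos (by exact_mod_cast (by omega : 1 < N))
  rw [id_eq, Real.norm_of_nonneg (Real.log_nonneg (by linarith)),
    Real.norm_of_nonneg (by linarith : (0 : ℝ) ≤ (N : ℝ) + 1)] at hN
  rw [Real.norm_of_nonneg (by positivity), Real.norm_of_nonneg (Nat.cast_nonneg _)]
  have h7 := Chebyshev.pi_ge N
  rw [div_le_iff₀ h6] at h7
  rw [div_le_iff₀ h6, div_mul_eq_mul_div, div_mul_eq_mul_div, le_div_iff₀ hlog2]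
  have h8 : Real.log 2 / 4 * ((N : ℝ) + 1) ≤ Real.log 2 / 4 * (2 * N) :=
    mul_le_mul_of_nonneg_left (by linarith) (by positivity)
  nlinarith [h7, hN, h8]

/-- **Almost no prime `p` has `p + h` prime.** -/
theorem tendsto_pairs_div {h : ℕ} (hh : h ≠ 0) :
    Tendsto (fun N : ℕ => (pairs h N : ℝ) / Nat.primeCounting N) atTop (𝓝 0) :=
  ((isLittleO_pairs hh).trans_isBigO isBigO_primeCounting).tendsto_div_nhds_zero

end Fermat.Agent.Cor.Brun
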