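import Mathlib

/-!
# Brun's pure sieve for the numbers `n (n + h)`

* `bonferroni`: the truncated alternating sum over the subsets of a finite set;
* `abs_card_sub_le`: for a finite set `D` of primes prime to `h`, the number of `n < N` such that
  every `p ∈ D` divides `n (n + h)` is `2 ^ #D N / ∏ D + O(2 ^ #D)`;
* `sieve`: the upper bound for the number of `n < N` such that no `p ∈ P` divides `n (n + h)`.
-/

set_option autoImplicit false

open Finset

namespace Fermat.Agent.Cor.Brun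

/-- **Bonferroni's inequality.** -/
theorem bonferroni {α : Type*} [DecidableEq α] (x : Finset α) {r : ℕ} (hr : Even r) :
    (if x = ∅ then 1 else 0 : ℤ) ≤ ∑ m ∈ x.powerset with #m ≤ r, (-1 : ℤ) ^ #m := by
  have h1 : ∑ m ∈ x.powerset with #m ≤ r, (-1 : ℤ) ^ #m =
      ∑ j ∈ range (r + 1), (-1 : ℤ) ^ j * (#x).choose j := by
    rw [sum_filter, sum_powerset_apply_card (fun j => if j ≤ r then (-1 : ℤ) ^ j else 0)]
    rw [← sum_subset (s₁ := (range (#x + 1)).filter (· ≤ r)) (s₂ := range (r + 1)), sum_filter]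
    · refine sum_congr rfl fun j _ => ?_
      split_ifs
      · rw [nsmul_eq_mul, mul_comm]
      · simp
    · intro j hj
      rw [mem_filter] at hj
      exact mem_range.mpr (by omega)
    · intro j hj hj2
      rw [mem_filter, mem_range] at hj2
      rw [mem_range] at hj
      rw [Nat.choose_eq_zero_of_lt (by omega)]
      simp
  rw [h1]
  rcases Nat.eq_zero_or_pos #x with h0 | h0
  · rw [if_pos (card_eq_zero.mp h0), h0]
    rw [sum_range_succ']
    simp
  · obtain ⟨n, hn⟩ : ∃ n, #x = n + 1 := ⟨#x - 1, by omega⟩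
    rw [if_neg (card_pos.mp h0).ne_empty, hn, Int.alternating_sum_range_choose_eq_choose,
      hr.neg_one_pow, one_mul]
    positivity

/-- the number of integers of a residue class -/
theorem abs_card_modEq_sub_le (N c : ℕ) {M : ℕ} (hM : 0 < M) :
    |(#{n ∈ range N | n ≡ c [MOD M]} : ℝ) - N / M| ≤ 1 := by
  rw [← Nat.count_eq_card_filter_range, Nat.count_modEq_card N hM c]
  have hM' : (0 : ℝ) < M := by exact_mod_cast hM
  have h1 : ((N / M : ℕ) : ℝ) ≤ (N : ℝ) / M := Nat.cast_div_le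
  have h2 : (N : ℝ) / M < ((N / M : ℕ) : ℝ) + 1 := by
    rw [div_lt_iff₀ hM']
    have h3 : N < (N / M + 1) * M := by
      rw [mul_comm]
      exact Nat.lt_mul_div_succ N hM
    exact_mod_cast h3
  rw [abs_le]
  push_cast
  split_ifs <;> constructor <;> linarith

theorem modEq_prod_iff {D : Finset ℕ} (hD : ∀ p ∈ D, p.Prime) (n c : ℕ) :
    n ≡ c [MOD ∏ p ∈ D, p] ↔ ∀ p ∈ D, n ≡ c [MOD p] := by
  simp_rw [Nat.modEq_iff_dvd]
  constructor
  · intro h p hp
    refine dvd_trans ?_ h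
    exact_mod_cast dvd_prod_of_mem (fun p : ℕ => p) hp
  · intro h
    push_cast
    refine Finset.prod_dvd_of_coprime (fun p hp q hq hpq => ?_) h
    exact_mod_cast Nat.isCoprime_iff_coprime.mpr ((Nat.coprime_primes (hD p hp) (hD q hq)).mpr hpq)

/-- the residue class of the integers divisible by the `p ∈ E`, congruent to `-h` modulo the other
`p ∈ D` -/
theorem exists_class {D : Finset ℕ} (hD : ∀ p ∈ D, p.Prime) (h : ℕ) (E : Finset ℕ) :
    ∃ c : ℕ, ∀ p ∈ D, (p ∈ E → c ≡ 0 [MOD p]) ∧ (p ∉ E → c + h ≡ 0 [MOD p]) := by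
  obtain ⟨c, hc⟩ := Nat.chineseRemainderOfFinset (fun p => if p ∈ E then 0 else p - h % p)
    (fun p => p) D (fun p hp => (hD p hp).ne_zero)
    fun p hp q hq hpq => (Nat.coprime_primes (hD p hp) (hD q hq)).mpr hpq
  refine ⟨c, fun p hp => ⟨fun hpE => ?_, fun hpE => ?_⟩⟩
  · simpa [hpE] using hc p hp
  · have h1 := hc p hp
    simp only [hpE, if_false] at h1
    have h2 : h ≡ h % p [MOD p] := (Nat.mod_modEq h p).symm
    have h3 := h1.add h2
    have h4 : h % p < p := Nat.mod_lt _ (hD p hp).pos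
    rw [Nat.sub_add_cancel h4.le] at h3
    exact h3.trans (by simp [Nat.ModEq])

/-- **The number of `n < N` such that every `p ∈ D` divides `n (n + h)`.** -/
theorem abs_card_sub_le {D : Finset ℕ} {h : ℕ} (hD : ∀ p ∈ D, p.Prime ∧ ¬ p ∣ h) (N : ℕ) :
    |(#{n ∈ range N | ∀ p ∈ D, p ∣ n * (n + h)} : ℝ) - 2 ^ #D * (N / ∏ p ∈ D, (p : ℝ))| ≤
      2 ^ #D := by
  have hDp : ∀ p ∈ D, p.Prime := fun p hp => (hD p hp).1
  have hM : 0 < ∏ p ∈ D, p := prod_pos fun p hp => (hDp p hp).pos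
  have h1 : #{n ∈ range N | ∀ p ∈ D, p ∣ n * (n + h)} =
      ∑ E ∈ D.powerset, #{n ∈ {n ∈ range N | ∀ p ∈ D, p ∣ n * (n + h)} | D.filter (· ∣ n) = E} :=
    card_eq_sum_card_fiberwise fun n _ => mem_powerset.mpr (filter_subset _ _)
  have h2 : ∀ E ∈ D.powerset, |(#{n ∈ {n ∈ range N | ∀ p ∈ D, p ∣ n * (n + h)} |
      D.filter (· ∣ n) = E} : ℝ) - N / ∏ p ∈ D, (p : ℝ)| ≤ 1 := by
    intro E hE
    rw [mem_powerset] at hE
    obtain ⟨c, hc⟩ := exists_class hDp h E
    have h3 : {n ∈ {n ∈ range N | ∀ p ∈ D, p ∣ n * (n + h)} | D.filter (· ∣ n) = E} =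
        {n ∈ range N | n ≡ c [MOD ∏ p ∈ D, p]} := by
      ext n
      rw [mem_filter, mem_filter, mem_filter, modEq_prod_iff hDp, and_assoc]
      refine and_congr_right fun _ => ⟨fun hn p hp => ?_, fun hn => ⟨fun p hp => ?_, ?_⟩⟩
      · by_cases hpE : p ∈ E
        · have h4 : p ∣ n := by
            rw [← hn.2, mem_filter] at hpE
            exact hpE.2
          exact ((Nat.modEq_zero_iff_dvd.mpr h4).trans ((hc p hp).1 hpE).symm)
        · have h4 : ¬ p ∣ n := fun h4 => hpE (by rw [← hn.2]; exact mem_filter.mpr ⟨hp, h4⟩)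
          have h5 : p ∣ n + h := ((hDp p hp).dvd_mul.mp (hn.1 p hp)).resolve_left h4
          exact Nat.ModEq.add_right_cancel' h
            ((Nat.modEq_zero_iff_dvd.mpr h5).trans ((hc p hp).2 hpE).symm)
      · by_cases hpE : p ∈ E
        · exact Dvd.dvd.mul_right (Nat.modEq_zero_iff_dvd.mp ((hn p hp).trans ((hc p hp).1 hpE))) _
        · exact Dvd.dvd.mul_left (Nat.modEq_zero_iff_dvd.mp
            (((hn p hp).add_right h).trans ((hc p hp).2 hpE))) _
      · ext p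
        rw [mem_filter]
        constructor
        · rintro ⟨hp, hpn⟩
          by_contra hpE
          have h5 : p ∣ n + h := Nat.modEq_zero_iff_dvd.mp
            (((hn p hp).add_right h).trans ((hc p hp).2 hpE))
          exact (hD p hp).2 ((Nat.dvd_add_right hpn).mp h5)
        · intro hpE
          exact ⟨hE hpE, Nat.modEq_zero_iff_dvd.mp ((hn p (hE hpE)).trans ((hc p (hE hpE)).1 hpE))⟩
    rw [h3]
    have h4 := abs_card_modEq_sub_le N c hM
    push_cast at h4
    exact h4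
  rw [h1]
  push_cast
  have h5 : (2 : ℝ) ^ #D * (N / ∏ p ∈ D, (p : ℝ)) = ∑ E ∈ D.powerset, (N / ∏ p ∈ D, (p : ℝ)) := by
    rw [sum_const, card_powerset, nsmul_eq_mul]
    push_cast
    rfl
  rw [h5, ← sum_sub_distrib]
  refine (abs_sum_le_sum_abs _ _).trans ((sum_le_sum h2).trans ?_)
  rw [sum_const, card_powerset, nsmul_eq_mul]
  push_cast
  rw [mul_one]

/-- **Brun's pure sieve.** -/
theorem sieve {P : Finset ℕ} {h : ℕ} (hP : ∀ p ∈ P, p.Prime ∧ ¬ p ∣ h) {r : ℕ} (hr : Even r)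
    (N : ℕ) : (#{n ∈ range N | ∀ p ∈ P, ¬ p ∣ n * (n + h)} : ℝ) ≤
      N * ∑ D ∈ P.powerset with #D ≤ r, ∏ p ∈ D, (-(2 / (p : ℝ))) +
      ∑ D ∈ P.powerset with #D ≤ r, (2 : ℝ) ^ #D := by
  have h1 : (#{n ∈ range N | ∀ p ∈ P, ¬ p ∣ n * (n + h)} : ℤ) ≤
      ∑ D ∈ P.powerset with #D ≤ r, (-1) ^ #D * (#{n ∈ range N | ∀ p ∈ D, p ∣ n * (n + h)} : ℤ) := by
    have h2 : (#{n ∈ range N | ∀ p ∈ P, ¬ p ∣ n * (n + h)} : ℤ) =
        ∑ n ∈ range N, if P.filter (· ∣ n * (n + h)) = ∅ then 1 else 0 := by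
      rw [card_filter]
      push_cast
      refine sum_congr rfl fun n _ => ?_
      congr 1
      rw [filter_eq_empty_iff]
    have h3 : ∀ D ∈ P.powerset, (#{n ∈ range N | ∀ p ∈ D, p ∣ n * (n + h)} : ℤ) =
        ∑ n ∈ range N, if D ⊆ P.filter (· ∣ n * (n + h)) then 1 else 0 := by
      intro D hD
      rw [mem_powerset] at hD
      rw [card_filter]
      push_cast
      refine sum_congr rfl fun n _ => ?_
      congr 1
      rw [eq_iff_iff, subset_iff]
      exact ⟨fun h4 p hp => mem_filter.mpr ⟨hD hp, h4 p hp⟩, fun h4 p hp => (mem_filter.mp (h4 hp)).2⟩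
    rw [h2]
    calc ∑ n ∈ range N, (if P.filter (· ∣ n * (n + h)) = ∅ then 1 else 0 : ℤ)
        ≤ ∑ n ∈ range N, ∑ D ∈ (P.filter (· ∣ n * (n + h))).powerset with #D ≤ r, (-1) ^ #D :=
          sum_le_sum fun n _ => bonferroni _ hr
      _ = ∑ n ∈ range N, ∑ D ∈ P.powerset with #D ≤ r,
            if D ⊆ P.filter (· ∣ n * (n + h)) then (-1) ^ #D else 0 := by
          refine sum_congr rfl fun n _ => ?_
          rw [← sum_filter]
          refine sum_congr ?_ fun _ _ => rfl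
          ext D
          simp only [mem_filter, mem_powerset]
          constructor
          · rintro ⟨h4, h5⟩
            exact ⟨⟨h4.trans (filter_subset _ _), h5⟩, h4⟩
          · rintro ⟨⟨_, h5⟩, h4⟩
            exact ⟨h4, h5⟩
      _ = ∑ D ∈ P.powerset with #D ≤ r,
            (-1) ^ #D * (#{n ∈ range N | ∀ p ∈ D, p ∣ n * (n + h)} : ℤ) := by
          rw [sum_comm]
          refine sum_congr rfl fun D hD => ?_
          rw [h3 D (mem_filter.mp hD).1, mul_sum]
          refine sum_congr rfl fun n _ => ?_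
          split_ifs <;> simp
  have h2 : (#{n ∈ range N | ∀ p ∈ P, ¬ p ∣ n * (n + h)} : ℝ) ≤
      ∑ D ∈ P.powerset with #D ≤ r, (-1) ^ #D * (#{n ∈ range N | ∀ p ∈ D, p ∣ n * (n + h)} : ℝ) := by
    exact_mod_cast h1
  refine h2.trans ?_
  rw [mul_sum, ← sum_add_distrib]
  refine sum_le_sum fun D hD => ?_
  have hDP : D ⊆ P := mem_powerset.mp (mem_filter.mp hD).1
  have h3 := abs_card_sub_le (fun p hp => hP p (hDP hp)) (D := D) N
  have h4 : ∏ p ∈ D, (-(2 / (p : ℝ))) = (-1) ^ #D * (2 ^ #D / ∏ p ∈ D, (p : ℝ)) := by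
    rw [prod_neg, prod_div_distrib, prod_const]
  rw [h4, show (N : ℝ) * ((-1) ^ #D * (2 ^ #D / ∏ p ∈ D, (p : ℝ))) =
    (-1) ^ #D * (2 ^ #D * (N / ∏ p ∈ D, (p : ℝ))) by ring]
  rw [abs_le] at h3
  rcases neg_one_pow_eq_or ℝ #D with h5 | h5 <;> rw [h5] <;> linarith [h3.1, h3.2]

end Fermat.Agent.Cor.Brun
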