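import Fermat.Agent.Corollaries.Brun.Sieve
import Fermat.Agent.Corollaries.Mertens.Rat

/-!
# The upper bound for the number of prime pairs, with free parameters

`#{n < N | n, n + h prime} ≤ z + C N / (log z)² + C N e^(-r) (log z)⁶ + C z^r (log z)²`.
-/

set_option autoImplicit false

open Finset Filter Topology

namespace Fermat.Agent.Cor.Brun

/-- the number of `n < N` such that `n` and `n + h` are prime numbers -/
def pairs (h N : ℕ) : ℕ := #{n ∈ range N | n.Prime ∧ (n + h).Prime}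

/-- the primes `p ≤ z` which do not divide `h` -/
def sp (h z : ℕ) : Finset ℕ := {p ∈ Icc 1 z | p.Prime ∧ ¬ p ∣ h}

theorem pairs_le (h z N : ℕ) :
    pairs h N ≤ z + #{n ∈ range N | ∀ p ∈ sp h z, ¬ p ∣ n * (n + h)} := by
  have h1 : {n ∈ range N | n.Prime ∧ (n + h).Prime} ⊆
      Icc 1 z ∪ {n ∈ range N | ∀ p ∈ sp h z, ¬ p ∣ n * (n + h)} := by
    intro n hn
    rw [mem_filter] at hn
    rw [mem_union]
    by_cases hnz : n ≤ z
    · exact Or.inl (mem_Icc.mpr ⟨hn.2.1.one_le, hnz⟩)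
    · refine Or.inr (mem_filter.mpr ⟨hn.1, fun p hp hpn => ?_⟩)
      rw [sp, mem_filter, mem_Icc] at hp
      rcases hp.2.1.dvd_mul.mp hpn with h2 | h2
      · have := (Nat.prime_dvd_prime_iff_eq hp.2.1 hn.2.1).mp h2
        omega
      · have := (Nat.prime_dvd_prime_iff_eq hp.2.1 hn.2.2).mp h2
        omega
  refine (card_le_card h1).trans ((card_union_le _ _).trans ?_)
  rw [Nat.card_Icc, Nat.add_sub_cancel]

theorem two_div_nonneg (p : ℕ) : 0 ≤ 2 / (p : ℝ) := by positivity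

theorem prod_one_add_le (P : Finset ℕ) {c : ℝ} (hc : 0 ≤ c) :
    ∏ p ∈ P, (1 + c * (2 / (p : ℝ))) ≤ Real.exp (c * ∑ p ∈ P, 2 / (p : ℝ)) := by
  rw [mul_sum, Real.exp_sum]
  refine prod_le_prod (fun p _ => ?_) fun p _ => ?_
  · have := two_div_nonneg p
    positivity
  · rw [add_comm]
    exact Real.add_one_le_exp _

/-- the sieve, after completion of the sums -/
theorem sieve_le {P : Finset ℕ} {h z : ℕ} (hP : ∀ p ∈ P, p.Prime ∧ ¬ p ∣ h)
    (hz : ∀ p ∈ P, p ≤ z) (hz1 : 1 ≤ z) {r : ℕ} (hr : Even r) (N : ℕ) :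
    (#{n ∈ range N | ∀ p ∈ P, ¬ p ∣ n * (n + h)} : ℝ) ≤
      N * ∏ p ∈ P, (1 - 2 / (p : ℝ)) +
      N * (Real.exp (-r) * Real.exp (Real.exp 1 * ∑ p ∈ P, 2 / (p : ℝ))) +
      z ^ r * Real.exp (∑ p ∈ P, 2 / (p : ℝ)) := by
  refine (sieve hP hr N).trans (add_le_add ?_ ?_)
  · rw [← mul_add]
    refine mul_le_mul_of_nonneg_left ?_ (Nat.cast_nonneg N)
    have h1 : ∑ D ∈ P.powerset with #D ≤ r, ∏ p ∈ D, (-(2 / (p : ℝ))) +
        ∑ D ∈ P.powerset with ¬ #D ≤ r, ∏ p ∈ D, (-(2 / (p : ℝ))) =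
        ∏ p ∈ P, (1 - 2 / (p : ℝ)) := by
      rw [sum_filter_add_sum_filter_not]
      simp_rw [sub_eq_add_neg]
      rw [prod_one_add]
    have h2 : |∑ D ∈ P.powerset with ¬ #D ≤ r, ∏ p ∈ D, (-(2 / (p : ℝ)))| ≤
        Real.exp (-r) * Real.exp (Real.exp 1 * ∑ p ∈ P, 2 / (p : ℝ)) := by
      calc |∑ D ∈ P.powerset with ¬ #D ≤ r, ∏ p ∈ D, (-(2 / (p : ℝ)))|
          ≤ ∑ D ∈ P.powerset with ¬ #D ≤ r, |∏ p ∈ D, (-(2 / (p : ℝ)))| := abs_sum_le_sum_abs _ _
        _ ≤ ∑ D ∈ P.powerset with ¬ #D ≤ r,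
              Real.exp (-r) * ∏ p ∈ D, (Real.exp 1 * (2 / (p : ℝ))) := by
            refine sum_le_sum fun D hD => ?_
            have hD2 := (mem_filter.mp hD).2
            have h3 : |∏ p ∈ D, (-(2 / (p : ℝ)))| = ∏ p ∈ D, (2 / (p : ℝ)) := by
              rw [abs_prod]
              refine prod_congr rfl fun p _ => ?_
              rw [abs_neg, abs_of_nonneg (two_div_nonneg p)]
            have h4 : 0 ≤ ∏ p ∈ D, (2 / (p : ℝ)) := prod_nonneg fun p _ => two_div_nonneg p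
            rw [h3, prod_mul_distrib, prod_const, ← mul_assoc]
            refine le_mul_of_one_le_left h4 ?_
            rw [← Real.exp_nat_mul, ← Real.exp_add]
            refine Real.one_le_exp ?_
            have h5 : (r : ℝ) ≤ #D := by exact_mod_cast (by omega : r ≤ #D)
            linarith
        _ ≤ ∑ D ∈ P.powerset, Real.exp (-r) * ∏ p ∈ D, (Real.exp 1 * (2 / (p : ℝ))) := by
            refine sum_le_sum_of_subset_of_nonneg (filter_subset _ _) fun D _ _ => ?_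
            exact mul_nonneg (Real.exp_pos _).le (prod_nonneg fun p _ =>
              mul_nonneg (Real.exp_pos _).le (two_div_nonneg p))
        _ = Real.exp (-r) * ∏ p ∈ P, (1 + Real.exp 1 * (2 / (p : ℝ))) := by
            rw [prod_one_add, mul_sum]
        _ ≤ _ := mul_le_mul_of_nonneg_left (prod_one_add_le P (Real.exp_pos 1).le)
            (Real.exp_pos _).le
    rw [abs_le] at h2
    linarith [h2.1]
  · calc ∑ D ∈ P.powerset with #D ≤ r, (2 : ℝ) ^ #D
        ≤ ∑ D ∈ P.powerset with #D ≤ r, (z : ℝ) ^ r * ∏ p ∈ D, (2 / (p : ℝ)) := by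
          refine sum_le_sum fun D hD => ?_
          have hD2 := (mem_filter.mp hD).2
          have hDP := mem_powerset.mp (mem_filter.mp hD).1
          have h4 : 0 ≤ ∏ p ∈ D, (2 / (p : ℝ)) := prod_nonneg fun p _ => two_div_nonneg p
          have h5 : (2 : ℝ) ^ #D = (∏ p ∈ D, (p : ℝ)) * ∏ p ∈ D, (2 / (p : ℝ)) := by
            rw [← prod_mul_distrib, ← prod_const]
            refine prod_congr rfl fun p hp => ?_
            have : (p : ℝ) ≠ 0 := by exact_mod_cast (hP p (hDP hp)).1.ne_zero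
            field_simp
          rw [h5]
          refine mul_le_mul_of_nonneg_right ?_ h4
          have h6 : ∏ p ∈ D, (p : ℝ) ≤ (z : ℝ) ^ #D := by
            rw [← prod_const]
            exact prod_le_prod (fun p _ => Nat.cast_nonneg p) fun p hp => by
              exact_mod_cast hz p (hDP hp)
          exact h6.trans (pow_le_pow_right₀ (by exact_mod_cast hz1) hD2)
      _ ≤ ∑ D ∈ P.powerset, (z : ℝ) ^ r * ∏ p ∈ D, (2 / (p : ℝ)) := by
          refine sum_le_sum_of_subset_of_nonneg (filter_subset _ _) fun D _ _ => ?_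
          exact mul_nonneg (by positivity) (prod_nonneg fun p _ => two_div_nonneg p)
      _ = z ^ r * ∏ p ∈ P, (1 + 1 * (2 / (p : ℝ))) := by
          simp_rw [one_mul]
          rw [prod_one_add, mul_sum]
      _ ≤ z ^ r * Real.exp (1 * ∑ p ∈ P, 2 / (p : ℝ)) :=
          mul_le_mul_of_nonneg_left (prod_one_add_le P zero_le_one) (by positivity)
      _ = _ := by rw [one_mul]

/-- Mertens' upper bound for the sum of the reciprocals. -/
theorem exists_sum_inv_le : ∃ C : ℝ, ∀ n : ℕ,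
    ∑ p ∈ (Icc 1 n).filter Nat.Prime, (p : ℝ)⁻¹ ≤ Real.log (Real.log n) + C := by
  have h1 := Mert.sum_inv.comp tendsto_natCast_atTop_atTop
  have h2 : Tendsto (fun n : ℕ => (Real.log n)⁻¹) atTop (𝓝 0) :=
    (Real.tendsto_log_atTop.comp tendsto_natCast_atTop_atTop).inv_tendsto_atTop
  have h3 := h1.mul h2
  have h4 : Tendsto (fun n : ℕ => ∑ p ∈ (Icc 1 n).filter Nat.Prime, (p : ℝ)⁻¹ -
      Real.log (Real.log n)) atTop (𝓝 Mert.meisselMertens) := by
    have h5 := h3.add_const Mert.meisselMertens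
    rw [zero_mul, zero_add] at h5
    refine h5.congr' ?_
    filter_upwards [eventually_ge_atTop 3] with n hn
    have h6 : 0 < Real.log n := Real.log_pos (by exact_mod_cast (by omega : 1 < n))
    simp only [Function.comp_apply, Nat.floor_natCast]
    field_simp
    ring
  obtain ⟨C, hC⟩ := h4.bddAbove_range
  exact ⟨C, fun n => by linarith [hC (Set.mem_range_self n)]⟩

/-- Mertens' upper bound for the product. -/
theorem exists_prod_le : ∃ C : ℝ, ∀ n : ℕ,
    (∏ p ∈ (Icc 1 n).filter Nat.Prime, (1 - (p : ℝ)⁻¹)) * Real.log n ≤ C := by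
  have h1 := Mert.prod_one_sub_inv.comp tendsto_natCast_atTop_atTop
  obtain ⟨C, hC⟩ := h1.bddAbove_range
  refine ⟨C, fun n => ?_⟩
  have h2 := hC (Set.mem_range_self n)
  simpa using h2

theorem one_sub_inv_nonneg {p : ℕ} (hp : p.Prime) : 0 < 1 - (p : ℝ)⁻¹ := by
  have h1 : (1 : ℝ) < p := by exact_mod_cast hp.one_lt
  have := inv_lt_one_of_one_lt₀ h1
  linarith

theorem one_sub_inv_le (p : ℕ) : 1 - (p : ℝ)⁻¹ ≤ 1 := by
  have : (0 : ℝ) ≤ (p : ℝ)⁻¹ := by positivity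
  linarith

theorem exists_prod_sp_le {h : ℕ} (hh : h ≠ 0) : ∃ C : ℝ, 0 ≤ C ∧ ∀ z : ℕ, 3 ≤ z →
    ∏ p ∈ sp h z, (1 - 2 / (p : ℝ)) ≤ C / Real.log z ^ 2 := by
  obtain ⟨C, hC⟩ := exists_prod_le
  set κ : ℝ := ∏ p ∈ h.primeFactors, (1 - (p : ℝ)⁻¹) with hκ
  have hκ0 : 0 < κ := prod_pos fun p hp => one_sub_inv_nonneg (Nat.prime_of_mem_primeFactors hp)
  refine ⟨(C / κ) ^ 2, by positivity, fun z hz => ?_⟩
  have hlog : 0 < Real.log z := Real.log_pos (by exact_mod_cast (by omega : 1 < z))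
  have h1 : ∏ p ∈ sp h z, (1 - 2 / (p : ℝ)) ≤ (∏ p ∈ sp h z, (1 - (p : ℝ)⁻¹)) ^ 2 := by
    rw [← prod_pow]
    refine prod_le_prod (fun p hp => ?_) fun p hp => ?_
    · have h2 : (2 : ℝ) ≤ p := by exact_mod_cast (mem_filter.mp hp).2.1.two_le
      have : 2 / (p : ℝ) ≤ 1 := (div_le_one (by linarith)).mpr h2
      linarith
    · have : (0 : ℝ) ≤ (p : ℝ)⁻¹ ^ 2 := sq_nonneg _
      rw [div_eq_mul_inv]
      nlinarith
  have h2 : (∏ p ∈ sp h z, (1 - (p : ℝ)⁻¹)) * κ ≤
      ∏ p ∈ (Icc 1 z).filter Nat.Prime, (1 - (p : ℝ)⁻¹) := by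
    have h3 : (Icc 1 z).filter Nat.Prime = sp h z ∪ (Icc 1 z).filter fun p => p.Prime ∧ p ∣ h := by
      ext p
      simp only [sp, mem_filter, mem_union]
      tauto
    have h4 : Disjoint (sp h z) ((Icc 1 z).filter fun p => p.Prime ∧ p ∣ h) := by
      rw [Finset.disjoint_left]
      intro p hp hp2
      exact (mem_filter.mp hp).2.2 (mem_filter.mp hp2).2.2
    rw [h3, prod_union h4]
    refine mul_le_mul_of_nonneg_left ?_ (prod_nonneg fun p hp =>
      (one_sub_inv_nonneg (mem_filter.mp hp).2.1).le)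
    rw [hκ]
    refine prod_le_prod_of_subset_of_le_one (fun p hp => ?_) (fun p hp => ?_) fun p _ _ =>
      one_sub_inv_le p
    · rw [mem_filter] at hp
      exact Nat.mem_primeFactors.mpr ⟨hp.2.1, hp.2.2, hh⟩
    · exact (one_sub_inv_nonneg (Nat.prime_of_mem_primeFactors hp)).le
  have h5 : ∏ p ∈ sp h z, (1 - (p : ℝ)⁻¹) ≤ C / κ / Real.log z := by
    rw [le_div_iff₀ hlog, le_div_iff₀ hκ0]
    calc (∏ p ∈ sp h z, (1 - (p : ℝ)⁻¹)) * Real.log z * κ
        = (∏ p ∈ sp h z, (1 - (p : ℝ)⁻¹)) * κ * Real.log z := by ring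
      _ ≤ (∏ p ∈ (Icc 1 z).filter Nat.Prime, (1 - (p : ℝ)⁻¹)) * Real.log z :=
          mul_le_mul_of_nonneg_right h2 hlog.le
      _ ≤ C := hC z
  have h6 : 0 ≤ ∏ p ∈ sp h z, (1 - (p : ℝ)⁻¹) := prod_nonneg fun p hp =>
    (one_sub_inv_nonneg (mem_filter.mp hp).2.1).le
  calc _ ≤ _ := h1
    _ ≤ (C / κ / Real.log z) ^ 2 := pow_le_pow_left₀ h6 h5 2
    _ = _ := by rw [div_pow (C / κ)]

/-- **The number of prime pairs, with free parameters.** -/
theorem upper {h : ℕ} (hh : h ≠ 0) : ∃ C : ℝ, 0 ≤ C ∧ ∀ z r N : ℕ, 3 ≤ z → Even r →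
    (pairs h N : ℝ) ≤ z + C * N / Real.log z ^ 2 + C * N * Real.exp (-r) * Real.log z ^ 6 +
      C * z ^ r * Real.log z ^ 2 := by
  obtain ⟨C₁, hC₁, h1⟩ := exists_prod_sp_le hh
  obtain ⟨C₂, h2⟩ := exists_sum_inv_le
  set M := max C₁ (Real.exp (6 * |C₂|)) with hM
  have hM0 : 0 < M := (Real.exp_pos _).trans_le (le_max_right _ _)
  refine ⟨M, hM0.le, fun z r N hz hr => ?_⟩
  have hz' : (3 : ℝ) ≤ z := by exact_mod_cast hz
  have hlog : 1 ≤ Real.log z := by
    rw [Real.le_log_iff_exp_le (by linarith)]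
    linarith [Real.exp_one_lt_d9]
  have hll : 0 ≤ Real.log (Real.log z) := Real.log_nonneg hlog
  set S := ∑ p ∈ sp h z, 2 / (p : ℝ) with hS
  have hS0 : 0 ≤ S := sum_nonneg fun p _ => two_div_nonneg p
  have h3 : S ≤ 2 * Real.log (Real.log z) + 2 * |C₂| := by
    have h4 : S ≤ 2 * ∑ p ∈ (Icc 1 z).filter Nat.Prime, (p : ℝ)⁻¹ := by
      rw [mul_sum, hS]
      refine sum_le_sum_of_subset_of_nonneg (fun p hp => ?_) fun p _ _ => by positivity
      rw [sp, mem_filter] at hp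
      exact mem_filter.mpr ⟨hp.1, hp.2.1⟩
    have h5 := h2 z
    have h6 := le_abs_self C₂
    linarith
  have h0 := abs_nonneg C₂
  have h7 : Real.exp S ≤ M * Real.log z ^ 2 := by
    calc Real.exp S ≤ Real.exp (6 * |C₂| + 2 * Real.log (Real.log z)) :=
          Real.exp_le_exp.mpr (by linarith)
      _ = Real.exp (6 * |C₂|) * Real.log z ^ 2 := by
          rw [Real.exp_add, show (2 : ℝ) = ((2 : ℕ) : ℝ) by norm_num, Real.exp_nat_mul,
            Real.exp_log (by linarith)]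
      _ ≤ _ := by
          gcongr
          exact le_max_right _ _
  have h8 : Real.exp (Real.exp 1 * S) ≤ M * Real.log z ^ 6 := by
    calc Real.exp (Real.exp 1 * S) ≤ Real.exp (6 * |C₂| + 6 * Real.log (Real.log z)) := by
          refine Real.exp_le_exp.mpr ?_
          have h9 : Real.exp 1 ≤ 3 := by linarith [Real.exp_one_lt_d9]
          calc Real.exp 1 * S ≤ 3 * S := mul_le_mul_of_nonneg_right h9 hS0
            _ ≤ _ := by linarith
      _ = Real.exp (6 * |C₂|) * Real.log z ^ 6 := by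
          rw [Real.exp_add, show 6 * Real.log (Real.log z) = ((6 : ℕ) : ℝ) * Real.log (Real.log z) by
            norm_num, Real.exp_nat_mul, Real.exp_log (by linarith)]
      _ ≤ _ := by
          gcongr
          exact le_max_right _ _
  have h9 : (pairs h N : ℝ) ≤ z + (#{n ∈ range N | ∀ p ∈ sp h z, ¬ p ∣ n * (n + h)} : ℝ) := by
    exact_mod_cast pairs_le h z N
  have h10 := sieve_le (P := sp h z) (h := h) (z := z) (fun p hp => (mem_filter.mp hp).2)
    (fun p hp => (mem_Icc.mp (mem_filter.mp hp).1).2) (by omega) hr N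
  have h11 : (N : ℝ) * ∏ p ∈ sp h z, (1 - 2 / (p : ℝ)) ≤ M * N / Real.log z ^ 2 := by
    calc (N : ℝ) * ∏ p ∈ sp h z, (1 - 2 / (p : ℝ)) ≤ N * (M / Real.log z ^ 2) := by
          refine mul_le_mul_of_nonneg_left ((h1 z hz).trans ?_) (Nat.cast_nonneg N)
          gcongr
          exact le_max_left _ _
      _ = _ := by ring
  have h12 : (N : ℝ) * (Real.exp (-r) * Real.exp (Real.exp 1 * S)) ≤
      M * N * Real.exp (-r) * Real.log z ^ 6 := by
    calc (N : ℝ) * (Real.exp (-r) * Real.exp (Real.exp 1 * S))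
        ≤ N * (Real.exp (-r) * (M * Real.log z ^ 6)) := by gcongr
      _ = _ := by ring
  have h13 : (z : ℝ) ^ r * Real.exp S ≤ M * z ^ r * Real.log z ^ 2 := by
    calc (z : ℝ) ^ r * Real.exp S ≤ z ^ r * (M * Real.log z ^ 2) := by gcongr
      _ = _ := by ring
  linarith

end Fermat.Agent.Cor.Brun
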